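import Fermat.Agent.ModularityLifting.Degeneracy.Provider.Levels

/-!
# The degeneracy maps of the level datum

The maps `α`, `β`, the projector `E`, the new points, and every identity the engine asks of them.
-/

set_option autoImplicit false

noncomputable section

open IsLocalRing Matrix

namespace FLTAgent.PointsDatum

open FLTAgent.LevelRaising FLTAgent.ModularityLifting FLTAgent.DefRing FLTAgent.HeckePoints
  FLTAgent.LevelLowering

variable {O : Type} [CommRing O] [IsDomain O] [IsDiscreteValuationRing O] {P : LiftProblem O}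
  {n : ℕ} {Q : TWSet P n} [Fact P.p.Prime] [IsAdicComplete (maximalIdeal O) O]
  [Finite (ResidueField O)] [CharZero O] [ExtraThree P]

namespace RaiseStep

variable {J : Finset ℕ} {v : ℕ} (h : RaiseStep P J v)
include h

/-- The matrix of `T_l` at the lower level, for every prime not dividing it. -/
theorem toMatrix_tMat {l : ℕ} (hl : l.Prime) (hlL : ¬ l ∣ Q.level J) :
    LinearMap.toMatrix (TWSet.moduleBasis (Q := Q) h.sub) (TWSet.moduleBasis h.sub)
      (Degeneracy.tE (q := v) (Q.delta J) Q.badSet (fun m hm hd => h.mem_badSet m hm hd) Q.aTW hl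
        hlL) = (Q.basis h.sub).tMat l := by
  ext a b
  rw [LinearMap.toMatrix_apply]
  have h1 : Degeneracy.tE (q := v) (Q.delta J) Q.badSet (fun m hm hd => h.mem_badSet m hm hd) Q.aTW
      hl hlL (TWSet.moduleBasis h.sub b) =
      ∑ i, ((Q.basis h.sub).tMat l) i b • TWSet.moduleBasis h.sub i := Subtype.ext (by
    rw [Degeneracy.coe_tE, TWSet.moduleBasis_apply,
      (Q.basis h.sub).tOp_b (Q.mem_badSet_of_dvd_level h.sub) hl hlL, comb_apply]
    simp [TWSet.moduleBasis_apply])
  rw [h1, Module.Basis.repr_sum_self]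

theorem exists_alpha_inv :
    ∃ L : Matrix (Fin 2 × Fin (Q.rank J)) (Fin (Q.rank (insert v J))) (TW P n),
      L * Degeneracy.αMat (h.alData (Q := Q)) h.prime (h.unitScalar (Q := Q))
      (fun m hm hd => h.mem_badSet m hm hd) (TWSet.moduleBasis h.sub) h.upBasis =
        (1 : Matrix (Fin 2 × Fin (Q.rank J)) (Fin 2 × Fin (Q.rank J)) (TW P n)) :=
  Degeneracy.exists_alpha_left_inverse h.prime h.not_dvd (fun m hm hd => h.mem_badSet m hm hd)
    (TWSet.moduleBasis h.sub) h.upBasis h.residual_delta h.residue_unitScalar h.residualDegeneracy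
    h.ker_residue_lower

theorem exists_beta_inv :
    ∃ R : Matrix (Fin (Q.rank (insert v J))) (Fin 2 × Fin (Q.rank J)) (TW P n),
      Degeneracy.βMat (h.alData (Q := Q)) h.prime h.not_dvd (h.unitScalar (Q := Q))
      (fun m hm hd => h.mem_badSet m hm hd) (TWSet.moduleBasis h.sub) h.upBasis * R =
        (1 : Matrix (Fin 2 × Fin (Q.rank J)) (Fin 2 × Fin (Q.rank J)) (TW P n)) :=
  Degeneracy.exists_beta_right_inverse h.prime h.not_dvd (fun m hm hd => h.mem_badSet m hm hd)
    (TWSet.moduleBasis h.sub) h.upBasis h.residual_delta h.residue_unitScalar h.residualDegeneracy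
    h.ker_residue_lower h.lift_residue_upper

/-- The scaled inverse of `(v + 1)² - T²` in the module bases. -/
theorem exists_inverse_toMatrix :
    ∃ (c : O) (T' : Matrix (Fin (Q.rank J)) (Fin (Q.rank J)) (TW P n)), c ≠ 0 ∧
      ((v : TW P n) + 1) ^ 2 • T' -
        ((↑(h.unitScalar (Q := Q))⁻¹ : TW P n) •
          LinearMap.toMatrix (TWSet.moduleBasis (Q := Q) h.sub) (TWSet.moduleBasis h.sub)
            (Degeneracy.tE (Q.delta J) Q.badSet (fun m hm hd => h.mem_badSet m hm hd) Q.aTW h.prime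
              h.not_dvd)) *
          (((↑(h.unitScalar (Q := Q))⁻¹ : TW P n) •
          LinearMap.toMatrix (TWSet.moduleBasis (Q := Q) h.sub) (TWSet.moduleBasis h.sub)
            (Degeneracy.tE (Q.delta J) Q.badSet (fun m hm hd => h.mem_badSet m hm hd) Q.aTW h.prime
              h.not_dvd)) * T') =
        algebraMap O (TW P n) c • (1 : Matrix (Fin (Q.rank J)) (Fin (Q.rank J)) (TW P n)) := by
  rw [h.toMatrix_tMat h.prime h.not_dvd, h.inv_unitScalar]
  exact h.exists_inverse

variable {C : Type} [CommRing C] [IsDomain C] [IsDiscreteValuationRing C] [Algebra O C]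
  [IsLocalHom (algebraMap O C)] [IsAdicComplete (maximalIdeal C) C] [Module.Finite O C] [CharZero C]
  {j : C →ₐ[O] Kbar O} (hj : Function.Injective j) (hlift : Q.AllPointsLift j)

/-- The generators act at both levels by scalars or by the same multiple of a Hecke operator. -/
theorem actsByHecke :
    Degeneracy.ActsByHecke (q := v) (traceAlg O (TWSet.rep (Q := Q) hj) TWSet.uVal) (Q.delta J)
      Q.badSet (fun m hm hd => h.mem_badSet m hm hd) Q.aTW (TWSet.moduleBasis h.sub) h.upBasis
      (TWSet.act hj hlift J) (TWSet.act hj hlift (insert v J))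
      ({s | ∃ l, l.Prime ∧ l ∉ Q.badSet ∧
          s = trElem O (TWSet.rep (Q := Q) hj) TWSet.uVal (P.frob l)} ∪
        Set.range (uElem O (TWSet.rep (Q := Q) hj) TWSet.uVal)) := by
  rintro g (⟨l, hl, hlS, rfl⟩ | ⟨i, rfl⟩)
  · have hlN : ¬ l ∣ Q.level J * v := fun hd => hlS (h.mem_badSet l hl hd)
    have h0 : ¬ l ∣ Q.level J * P.p := fun hd => hlS (Q.mem_badSet_of_dvd h.sub hl hd)
    have h1 : ¬ l ∣ Q.level (insert v J) * P.p := fun hd =>
      hlS (Q.mem_badSet_of_dvd h.insert_sub hl hd)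
    refine ⟨Ring.inverse (Q.twScalar l), Or.inr ⟨l, hl, hlN, ?_, ?_⟩⟩
    · rw [TWSet.act_frob hj hlift h.sub hl h0 (P.place_spec l hl) (P.frob_spec l hl),
        TWSet.toMatrix_tm h.sub hl h0 _ fun Φ => Degeneracy.coe_tE _ _ _ _ hl _ Φ]
    · rw [TWSet.act_frob hj hlift h.insert_sub hl h1 (P.place_spec l hl) (P.frob_spec l hl),
        h.toMatrix_up hl hlS _ fun Φ => Degeneracy.coe_tE' _ _ _ _ hl hlN Φ]
  · refine ⟨1 + Ideal.Quotient.mk _ (MvPowerSeries.X i), Or.inl ⟨?_, ?_⟩⟩
    · rw [TWSet.act_u hj hlift h.sub i, Matrix.scalar_apply, ← Matrix.smul_one_eq_diagonal]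
    · rw [TWSet.act_u hj hlift h.insert_sub i, Matrix.scalar_apply,
        ← Matrix.smul_one_eq_diagonal]

/-- The trace at the Frobenius of `v` acts as the normalised `T_v`. -/
theorem act_frob_step (hvp : v ≠ P.p) :
    TWSet.act hj hlift J (trElem O (TWSet.rep (Q := Q) hj) TWSet.uVal (P.frob v)) =
      (↑(h.unitScalar (Q := Q))⁻¹ : TW P n) •
        LinearMap.toMatrix (TWSet.moduleBasis (Q := Q) h.sub) (TWSet.moduleBasis h.sub)
          (Degeneracy.tE (Q.delta J) Q.badSet (fun m hm hd => h.mem_badSet m hm hd) Q.aTW h.prime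
            h.not_dvd) := by
  have h0 : ¬ v ∣ Q.level J * P.p := fun hd =>
    (h.prime.dvd_mul.mp hd).elim h.not_dvd fun e =>
      hvp ((Nat.prime_dvd_prime_iff_eq h.prime P.hp).mp e)
  rw [TWSet.act_frob hj hlift h.sub h.prime h0 (P.place_spec v h.prime) (P.frob_spec v h.prime),
    h.inv_unitScalar, h.toMatrix_tMat h.prime h.not_dvd, Q.tm_eq h.sub h.prime h0]

end RaiseStep

namespace TWSet

variable {C : Type} [CommRing C] [IsDomain C] [IsDiscreteValuationRing C] [Algebra O C]
  [IsLocalHom (algebraMap O C)] [IsAdicComplete (maximalIdeal C) C] [Module.Finite O C] [CharZero C]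
  {j : C →ₐ[O] Kbar O} (hj : Function.Injective j) (hlift : Q.AllPointsLift j)

omit [CharZero O] [ExtraThree P] in
/-- Scalar multiplication by a nonzero constant is injective on the coefficient ring. -/
theorem smul_regular (x : O) (hx : x ≠ 0) (y : TW P n) (hy : x • y = 0) : y = 0 := by
  have := free_twRing O P.p P.r n P.p_mem
  exact (smul_eq_zero.mp hy).resolve_left hx

open scoped Classical in
/-- The degeneracy map. -/
def dgAlpha (J : Finset ℕ) (v : ℕ) :
    Matrix (Fin (Q.rank (insert v J))) (Fin 2 × Fin (Q.rank J)) (TW P n) :=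
  if h : RaiseStep P J v then
    Degeneracy.αMat h.alData h.prime (h.unitScalar (Q := Q)) (fun m hm hd => h.mem_badSet m hm hd)
      (TWSet.moduleBasis h.sub) h.upBasis
  else 0

open scoped Classical in
/-- A left inverse of the degeneracy map. -/
def dgAlphaInv (J : Finset ℕ) (v : ℕ) :
    Matrix (Fin 2 × Fin (Q.rank J)) (Fin (Q.rank (insert v J))) (TW P n) :=
  if h : RaiseStep P J v then (h.exists_alpha_inv (Q := Q)).choose else 0

open scoped Classical in
/-- The transposed degeneracy map. -/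
def dgBeta (J : Finset ℕ) (v : ℕ) :
    Matrix (Fin 2 × Fin (Q.rank J)) (Fin (Q.rank (insert v J))) (TW P n) :=
  if h : RaiseStep P J v then
    Degeneracy.βMat h.alData h.prime h.not_dvd (h.unitScalar (Q := Q))
      (fun m hm hd => h.mem_badSet m hm hd)
      (TWSet.moduleBasis h.sub) h.upBasis
  else 0

open scoped Classical in
/-- A right inverse of the transposed degeneracy map. -/
def dgBetaInv (J : Finset ℕ) (v : ℕ) :
    Matrix (Fin (Q.rank (insert v J))) (Fin 2 × Fin (Q.rank J)) (TW P n) :=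
  if h : RaiseStep P J v then (h.exists_beta_inv (Q := Q)).choose else 0

open scoped Classical in
/-- Twice the projector to the sign of the problem, and the identity at `p`. -/
def dgE (J : Finset ℕ) (v : ℕ) :
    Matrix (Fin (Q.rank (insert v J))) (Fin (Q.rank (insert v J))) (TW P n) :=
  if v = P.p then 1
  else if h : RaiseStep P J v then
    Degeneracy.EMat h.alData h.prime h.not_dvd (h.unitScalar (Q := Q))
      (fun m hm hd => h.mem_badSet m hm hd)
      (TWSet.moduleBasis h.sub) h.upBasis (P.ε v)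
  else 0

/-- The points new at `v` of a given sign. -/
def signPts {J : Finset ℕ} {v : ℕ} (h : RaiseStep P J v) (ε : O) : Set (Q.Point C) :=
  Degeneracy.newPts h.alData h.prime h.not_dvd (h.unitScalar (Q := Q))
    (fun m hm hd => h.mem_badSet m hm hd)
    (TWSet.moduleBasis h.sub) h.upBasis (act hj hlift (insert v J)) ε (pts (insert v J))

open scoped Classical in
/-- The points new at `v`: of the sign of the problem away from `p`, of both signs at `p`. -/
def dgNew (J : Finset ℕ) (v : ℕ) : Set (Q.Point C) :=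
  if h : RaiseStep P J v then
    if v = P.p then signPts hj hlift h 1 ∪ signPts hj hlift h (-1) else signPts hj hlift h (P.ε v)
  else ∅

variable {J : Finset ℕ} {v : ℕ}

theorem dgNew_eq (h : RaiseStep P J v) (hvp : v ≠ P.p) :
    dgNew hj hlift J v = signPts hj hlift h (P.ε v) := by
  rw [dgNew, dif_pos h, if_neg hvp]

theorem dgNew_eq_p (h : RaiseStep P J P.p) :
    dgNew hj hlift J P.p = signPts hj hlift h 1 ∪ signPts hj hlift h (-1) := by
  rw [dgNew, dif_pos h, if_pos rfl]

theorem dgNew_subset : dgNew hj hlift J v ⊆ pts (insert v J) := by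
  let := @Fintype.ofFinite _ (finite_point (Q := Q) hj)
  unfold dgNew
  split_ifs with h hv
  · exact Set.union_subset (Degeneracy.newPts_subset ..) (Degeneracy.newPts_subset ..)
  · exact Degeneracy.newPts_subset ..
  · exact Set.empty_subset _

variable (hJ : J ⊆ P.raise) (hv : v ∈ P.raise) (hvJ : v ∉ J)
include hJ hv hvJ

theorem dgAlphaInv_mul : dgAlphaInv (Q := Q) J v * dgAlpha (Q := Q) J v = 1 := by
  have h : RaiseStep P J v := ⟨hJ, hv, hvJ⟩
  rw [dgAlphaInv, dgAlpha, dif_pos h, dif_pos h]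
  exact (h.exists_alpha_inv (Q := Q)).choose_spec

theorem dgBeta_mul : dgBeta (Q := Q) J v * dgBetaInv (Q := Q) J v = 1 := by
  have h : RaiseStep P J v := ⟨hJ, hv, hvJ⟩
  rw [dgBetaInv, dgBeta, dif_pos h, dif_pos h]
  exact (h.exists_beta_inv (Q := Q)).choose_spec

theorem dgAlpha_comm (t : traceAlg O (rep (Q := Q) hj) uVal) :
    act hj hlift (insert v J) t * dgAlpha J v = dgAlpha J v *
      Matrix.of fun x y : Fin 2 × Fin (Q.rank J) =>
        if x.1 = y.1 then act hj hlift J t x.2 y.2 else 0 := by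
  have h : RaiseStep P J v := ⟨hJ, hv, hvJ⟩
  let := @Fintype.ofFinite _ (finite_point (Q := Q) hj)
  rw [dgAlpha, dif_pos h]
  exact Degeneracy.αMat_comm _ _ h.not_dvd _ _ _ _ _ _ (adjoin_frob_eq_top hj)
    (h.actsByHecke hj hlift) t

theorem dgBeta_comm (t : traceAlg O (rep (Q := Q) hj) uVal) :
    dgBeta J v * act hj hlift (insert v J) t = (Matrix.of fun x y : Fin 2 × Fin (Q.rank J) =>
      if x.1 = y.1 then act hj hlift J t x.2 y.2 else 0) * dgBeta J v := by
  have h : RaiseStep P J v := ⟨hJ, hv, hvJ⟩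
  let := @Fintype.ofFinite _ (finite_point (Q := Q) hj)
  rw [dgBeta, dif_pos h]
  exact Degeneracy.βMat_comm _ _ _ _ _ _ _ _ _ (adjoin_frob_eq_top hj)
    (h.actsByHecke hj hlift) t

theorem dgE_comm (t : traceAlg O (rep (Q := Q) hj) uVal) :
    dgE J v * act hj hlift (insert v J) t = act hj hlift (insert v J) t * dgE J v := by
  have h : RaiseStep P J v := ⟨hJ, hv, hvJ⟩
  let := @Fintype.ofFinite _ (finite_point (Q := Q) hj)
  by_cases hvp : v = P.p
  · rw [dgE, if_pos hvp, Matrix.one_mul, Matrix.mul_one]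
  rw [dgE, if_neg hvp, dif_pos h]
  exact Degeneracy.EMat_comm _ _ _ _ _ _ _ _ _ (adjoin_frob_eq_top hj)
    (h.actsByHecke hj hlift) _ t

omit hJ hv hvJ in
theorem dgE_p : dgE (Q := Q) J P.p = 1 := by rw [dgE, if_pos rfl]

theorem dgBeta_alpha (hvp : v ≠ P.p) :
    dgBeta (Q := Q) J v * dgAlpha J v = Matrix.of fun x y : Fin 2 × Fin (Q.rank J) =>
      if x.1 = y.1 then (if x.2 = y.2 then (v : TW P n) + 1 else 0)
      else act hj hlift J (trElem O (rep (Q := Q) hj) uVal (P.frob v)) x.2 y.2 := by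
  have h : RaiseStep P J v := ⟨hJ, hv, hvJ⟩
  let := @Fintype.ofFinite _ (finite_point (Q := Q) hj)
  rw [dgBeta, dgAlpha, dif_pos h, dif_pos h]
  exact Degeneracy.βMat_αMat _ _ _ _ _ _ _ _ h.unitScalar_sq (h.act_frob_step hj hlift hvp)

theorem dgBeta_E (hvp : v ≠ P.p) :
    dgBeta (Q := Q) J v * dgE J v = (Matrix.of fun x y : Fin 2 × Fin (Q.rank J) =>
      (if x = y then 1 else 0) + algebraMap O (TW P n) (P.ε v) *
        (if x.1 = 0 ∧ y.1 = 1 then (if x.2 = y.2 then (v : TW P n) else 0)
        else if x.1 = 1 ∧ y.1 = 0 then (if x.2 = y.2 then -1 else 0)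
        else if x.1 = 1 ∧ y.1 = 1 then
          act hj hlift J (trElem O (rep (Q := Q) hj) uVal (P.frob v)) x.2 y.2
        else 0)) * dgBeta J v := by
  have h : RaiseStep P J v := ⟨hJ, hv, hvJ⟩
  let := @Fintype.ofFinite _ (finite_point (Q := Q) hj)
  rw [dgBeta, dgE, dif_pos h, if_neg hvp, dif_pos h]
  exact Degeneracy.βMat_EMat _ _ _ _ _ _ _ _ h.unitScalar_sq (h.act_frob_step hj hlift hvp) _

theorem dgCoker (t : traceAlg O (rep (Q := Q) hj) uVal)
    (ht : ∀ θ ∈ dgNew hj hlift J v, (t : Q.Point C → C) θ = 0) :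
    (dgAlpha J v * dgAlphaInv J v - 1) * act hj hlift (insert v J) t * dgE J v = 0 := by
  have h : RaiseStep P J v := ⟨hJ, hv, hvJ⟩
  let := @Fintype.ofFinite _ (finite_point (Q := Q) hj)
  rw [dgAlpha, dgAlphaInv, dif_pos h, dif_pos h]
  by_cases hvp : v = P.p
  · subst hvp
    rw [dgE, if_pos rfl, Matrix.mul_one]
    rw [dgNew_eq_p hj hlift h] at ht
    exact Degeneracy.αMat_coker_two _ _ _ _ _ _ _ _ _ (adjoin_frob_eq_top hj)
      (h.actsByHecke hj hlift) h.unitScalar_sq h.exists_inverse_toMatrix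
      (fun s hs => act_vanish hj hlift h.insert_sub s hs) smul_regular
      (h.exists_alpha_inv (Q := Q)).choose_spec two_ne_zero t ht
  · rw [dgE, if_neg hvp, dif_pos h]
    rw [dgNew_eq hj hlift h hvp] at ht
    exact Degeneracy.αMat_coker _ _ _ _ _ _ _ _ _ (adjoin_frob_eq_top hj)
      (h.actsByHecke hj hlift) h.unitScalar_sq h.exists_inverse_toMatrix
      (fun s hs => act_vanish hj hlift h.insert_sub s hs) smul_regular
      (h.exists_alpha_inv (Q := Q)).choose_spec (P.sign v) t ht

theorem dgCoker_zero (t : traceAlg O (rep (Q := Q) hj) uVal)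
    (ht : ∀ θ ∈ dgNew hj hlift J v, (∀ i, uVal θ i = 1) → (t : Q.Point C → C) θ = 0)
    (a b : Fin (Q.rank (insert v J))) :
    ((dgAlpha J v * dgAlphaInv J v - 1) * act hj hlift (insert v J) t * dgE J v :
      Matrix (Fin (Q.rank (insert v J))) (Fin (Q.rank (insert v J))) (TW P n)) a b ∈
        augIdeal O P.p P.r n := by
  have h : RaiseStep P J v := ⟨hJ, hv, hvJ⟩
  let := @Fintype.ofFinite _ (finite_point (Q := Q) hj)
  rw [dgAlpha, dgAlphaInv, dif_pos h, dif_pos h]
  by_cases hvp : v = P.p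
  · subst hvp
    rw [dgE, if_pos rfl, Matrix.mul_one]
    rw [dgNew_eq_p hj hlift h] at ht
    exact Degeneracy.αMat_coker_two_mem _ _ _ _ _ _ _ _ _ (adjoin_frob_eq_top hj)
      (h.actsByHecke hj hlift) h.unitScalar_sq h.exists_inverse_toMatrix smul_regular
      (h.exists_alpha_inv (Q := Q)).choose_spec two_ne_zero {θ | ∀ i, uVal θ i = 1} _
      (fun s hs => act_vanish_zero hj hlift h.insert_sub s hs)
      (fun x hx y hy => mem_augIdeal_of_smul O P.p P.r n P.p_mem hx hy) t ht a b
  · rw [dgE, if_neg hvp, dif_pos h]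
    rw [dgNew_eq hj hlift h hvp] at ht
    exact Degeneracy.αMat_coker_mem _ _ _ _ _ _ _ _ _ (adjoin_frob_eq_top hj)
      (h.actsByHecke hj hlift) h.unitScalar_sq h.exists_inverse_toMatrix smul_regular
      (h.exists_alpha_inv (Q := Q)).choose_spec (P.sign v) {θ | ∀ i, uVal θ i = 1} _
      (fun s hs => act_vanish_zero hj hlift h.insert_sub s hs)
      (fun x hx y hy => mem_augIdeal_of_smul O P.p P.r n P.p_mem hx hy) t ht a b

omit hJ hv hvJ in
/-- Every scalar is the action of an element of the trace algebra. -/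
theorem exists_act_scalar {J : Finset ℕ} (hJ : J ⊆ P.raise) (x : TW P n) :
    ∃ s : traceAlg O (rep (Q := Q) hj) uVal, act hj hlift J s = x • 1 := by
  obtain ⟨y, rfl⟩ : ∃ y, ofGroupAlg O P.p P.r n y = x :=
    ⟨twEquiv O P.p P.r n P.p_mem x, (twEquiv O P.p P.r n P.p_mem).symm_apply_apply x⟩
  induction y using MonoidAlgebra.induction_on with
  | of z =>
    refine ⟨∏ i, uElem O (rep (Q := Q) hj) uVal i ^ (Multiplicative.toAdd z i).val, ?_⟩
    have hu : ∀ i, act hj hlift J (uElem O (rep (Q := Q) hj) uVal i) =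
        Matrix.scalar (Fin (Q.rank J)) (twU O P.p P.r n i) := fun i => act_u hj hlift hJ i
    rw [Matrix.smul_one_eq_diagonal, ← Matrix.scalar_apply]
    conv_rhs => rw [levelGen_prod z]
    simp only [map_prod, map_pow, ofGroupAlg_gen]
    induction (Finset.univ : Finset (Fin P.r)) using Finset.induction_on with
    | empty => simp
    | insert i t hi ih =>
      rw [Finset.prod_insert hi, Finset.prod_insert hi, map_mul, ih, map_pow, hu, ← map_pow,
        ← map_mul]
  | add y z hy hz =>
    obtain ⟨s, hs⟩ := hy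
    obtain ⟨s', hs'⟩ := hz
    exact ⟨s + s', by rw [map_add, map_add, hs, hs', add_smul]⟩
  | smul c y hy =>
    obtain ⟨s, hs⟩ := hy
    exact ⟨c • s, by rw [map_smul, map_smul, hs, smul_assoc]⟩

end TWSet

end FLTAgent.PointsDatum
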