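import Fermat.Agent.SemistableHecke.LocalSteinberg

/-!
# Steinberg type with the sign of the Hecke eigenvalue

`steinbergAt_qCoeff`: at a prime `q ≠ p` exactly dividing the level of a newform the attached
representation is Steinberg, with sign the eigenvalue of `U_q`.
-/

set_option autoImplicit false

noncomputable section

open IsLocalRing CongruenceSubgroup

namespace FLTAgent.PointsDatum

open FLTAgent.ModularityLifting FLTAgent.DefRing FLTAgent.GaloisAttach

/-- At a prime `q ≠ p` exactly dividing the level of a newform the representation is Steinberg with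
sign the eigenvalue of `U_q`. -/
theorem steinbergAt_qCoeff {p : ℕ} [Fact p.Prime] {O' : Type} [CommRing O'] [IsDomain O']
    [IsDiscreteValuationRing O'] [IsAdicComplete (maximalIdeal O') O'] [CharZero O']
    (hpO : (p : O') ∈ maximalIdeal O') {N q : ℕ} [NeZero N] (hq : q.Prime) (hqp : q ≠ p)
    (hqN : q ∣ N) (hq2 : ¬ q ^ 2 ∣ N) {g : CuspForm (Gamma0 N) 2} (hg : g.IsNewform)
    (S : Finset ℕ) (θ : CuspForm.heckeAlgebra N 2 (S : Set ℕ) →+* O')
    (hker : RingHom.ker θ = RingHom.ker (Eigenforms.eigenChar (S := (S : Set ℕ)) hg.1))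
    (T : AttachedTrace N p (S : Set ℕ) (maximalIdeal O') θ) (ρ : MatRep O')
    (htr : ∀ σ, (ρ σ).trace = T.f σ) :
    ∃ ε : ℤ, (ε = 1 ∨ ε = -1) ∧ ModularFormClass.qCoeff g q = ε ∧
      SteinbergAt ρ q (ε : O') := by
  obtain ⟨M, rfl⟩ : ∃ M, N = M * q := by
    obtain ⟨M, rfl⟩ := hqN
    exact ⟨M, mul_comm _ _⟩
  have hqM : ¬ q ∣ M := fun h => hq2 (by rw [pow_two]; exact Nat.mul_dvd_mul_right h q)
  have : NeZero M := ⟨left_ne_zero_of_mul (NeZero.ne (M * q))⟩
  have : NeZero q := ⟨hq.ne_zero⟩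
  obtain ⟨ε, hε, hgq, S', lam, c, e, hL, he, hw⟩ :=
    SemistableHecke.exists_newPart_data hpO hq hqM hg S θ hker T ρ htr
  exact ⟨ε, hε, hgq, SemistableHecke.steinbergAt_of_linked hpO hq hqp hqM ρ hε hL he hw⟩

end FLTAgent.PointsDatum
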