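import Fermat.Agent.ModularityLifting.Degeneracy.Provider.Maps
import Fermat.Agent.ModularityLifting.Degeneracy.Provider.LocalSign
import Fermat.Agent.ModularityLifting.Degeneracy.NewSymb
import Fermat.Agent.ModularityLifting.NewformOfSymb
import Fermat.Agent.ModularityLifting.PointsDatum.Local
import Fermat.Agent.LevelLowering.Twist.Complex

/-!
# The local type of the points new at a raising prime

A new point of sign `e` at `v` has an eigensymbol on which `U_v` is `e` times the scalar of the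
twist; its twist comes from a newform of level exactly divisible by `v` with `a_v = e`, so the
representation is Steinberg of sign `e` at `v ≠ p`, and strictly ordinary at `v = p`.
-/

set_option autoImplicit false
set_option linter.unusedSectionVars false

noncomputable section

open IsLocalRing Matrix

namespace FLTAgent.PointsDatum

open FLTAgent.LevelRaising FLTAgent.ModularityLifting FLTAgent.DefRing FLTAgent.HeckePoints
  FLTAgent.GaloisAttach CongruenceSubgroup
open FLTAgent.Density (GalQ Qbar)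

/-- An eigensymbol with values in a field of characteristic zero, read in `ℂ`. -/
theorem exists_complex_symbol {K : Type} [Field K] [CharZero K] {L q : ℕ} (S : Finset ℕ)
    (hS : ∀ l, l.Prime → l ∣ L → l ∈ S) (c : ℕ → K) (e : ℤ) {Ψ : Cusp → Cusp → K}
    (hΨ : Ψ ∈ Lev K L) (hne : Ψ ≠ 0) (hT : ∀ l, l.Prime → l ∉ S → tOp K l Ψ = c l • Ψ)
    (hU : uOp K q Ψ = (e : K) • Ψ) :
    ∃ (F : Subfield K) (ι : F →+* ℂ) (hc : ∀ l, c l ∈ F) (Φ : Cusp → Cusp → ℂ),
      Φ ∈ Lev ℂ L ∧ Φ ≠ 0 ∧ (∀ l, l.Prime → l ∉ S → tOp ℂ l Φ = ι ⟨c l, hc l⟩ • Φ) ∧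
      uOp ℂ q Φ = (e : ℂ) • Φ := by
  have : Countable Cusp := inferInstanceAs (Countable (Option ℚ))
  obtain ⟨F, hF, ⟨ι⟩⟩ := LevelLowering.exists_subfield_toComplex
    (Set.range c ∪ Set.range fun x : Cusp × Cusp => Ψ x.1 x.2)
    ((Set.countable_range c).union (Set.countable_range _))
  have hc : ∀ l, c l ∈ F := fun l => hF (Or.inl ⟨l, rfl⟩)
  let Ψ₀ : Cusp → Cusp → F := fun x y => ⟨Ψ x y, hF (Or.inr ⟨(x, y), rfl⟩)⟩
  have hmap : mapVal F.subtype Ψ₀ = Ψ := rfl
  have hinj : ∀ X Y : Cusp → Cusp → F, mapVal F.subtype X = mapVal F.subtype Y → X = Y :=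
    fun X Y h => funext fun x => funext fun y => Subtype.ext (congrFun (congrFun h x) y)
  have hΨ₀ : Ψ₀ ∈ SymbChar F (1 : DirichletCharacter F L) := by
    rw [← symbChar_eq_lev] at hΨ
    refine ⟨fun x y z => Subtype.ext (hΨ.1 x y z),
      fun γ hγ x y => Subtype.ext ((hΨ.2 γ hγ x y).trans ?_)⟩
    show _ = ((((1 : DirichletCharacter F L) ((γ 1 1 : ℤ) : ZMod L)) : F) : K) * Ψ x y
    rw [MulChar.one_apply (isUnit_lowerRight hγ), MulChar.one_apply (isUnit_lowerRight hγ),
      OneMemClass.coe_one]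
  have hT₀ : ∀ l, l.Prime → l ∉ S →
      tOpChar F (1 : DirichletCharacter F L) l Ψ₀ = (⟨c l, hc l⟩ : F) • Ψ₀ := fun l hl hlS => by
    refine hinj _ _ ?_
    rw [mapVal_tOpChar, MulChar.ringHomComp_one, hmap,
      tOpChar_one hl (fun h => hlS (hS l hl h)), hT l hl hlS, mapVal_smul, hmap]
    rfl
  have hU₀ : uOp F q Ψ₀ = (e : F) • Ψ₀ := by
    refine hinj _ _ ?_
    rw [Degeneracy.map_uOp, hmap, hU, mapVal_smul, hmap, map_intCast]
  refine ⟨F, ι, hc, mapVal ι Ψ₀, ?_, fun h => hne ?_, fun l hl hlS => ?_, ?_⟩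
  · have h := mapVal_mem ι hΨ₀
    rwa [MulChar.ringHomComp_one, symbChar_eq_lev] at h
  · funext x y
    exact congrArg Subtype.val ((map_eq_zero ι).mp (congrFun (congrFun h x) y))
  · have h := congrArg (mapVal ι) (hT₀ l hl hlS)
    rwa [mapVal_tOpChar, MulChar.ringHomComp_one, tOpChar_one hl (fun h => hlS (hS l hl h)),
      mapVal_smul] at h
  · rw [← Degeneracy.map_uOp, hU₀, mapVal_smul, map_intCast]

variable {O : Type} [CommRing O] [IsDomain O] [IsDiscreteValuationRing O] {P : LiftProblem O}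
  {n : ℕ} {Q : TWSet P n} [Fact P.p.Prime] [IsAdicComplete (maximalIdeal O) O]
  [Finite (ResidueField O)] [CharZero O] [ExtraThree P]
  {C : Type} [CommRing C] [IsDomain C] [IsDiscreteValuationRing C] [Algebra O C]
  [IsLocalHom (algebraMap O C)] [IsAdicComplete (maximalIdeal C) C] [Module.Finite O C] [CharZero C]
  [Finite (ResidueField C)]
  {j : C →ₐ[O] Kbar O} (hj : Function.Injective j) (hlift : Q.AllPointsLift j)

namespace TWSet

/-- The classes of `1 + X_i` generate the coefficient ring. -/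
theorem adjoin_twU_eq_top (_ : TWSet P n) :
    Algebra.adjoin O (Set.range (twU O P.p P.r n)) = ⊤ := by
  have := neZero_pow P.p n
  refine top_le_iff.mp fun a _ => ?_
  rw [← (twEquiv O P.p P.r n P.p_mem).symm_apply_apply a]
  generalize twEquiv O P.p P.r n P.p_mem a = z
  show ofGroupAlg O P.p P.r n z ∈ _
  induction z using MonoidAlgebra.induction_on with
  | of x =>
    rw [LevelLowering.levelGen_prod x, map_prod, map_prod]
    exact Subalgebra.prod_mem _ fun i _ => by
      rw [map_pow, map_pow, ofGroupAlg_gen]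
      exact pow_mem (Algebra.subset_adjoin (Set.mem_range_self i)) _
  | add a b ha hb => rw [map_add]; exact add_mem ha hb
  | smul c a ha => rw [map_smul]; exact Subalgebra.smul_mem _ ha c

theorem twT_spec_prime (φ : TW P n →+* Kbar O) {t : ℕ} (ht : t ∈ Q.twT φ) : t.Prime :=
  (Q.twT_spec φ ht).choose_spec.2.1

end TWSet

namespace RaiseStep

open TWSet

variable {J : Finset ℕ} {v : ℕ} (h : RaiseStep P J v)
  {G : Set (traceAlg O (TWSet.rep (Q := Q) hj) TWSet.uVal)} (hG : Algebra.adjoin O G = ⊤)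
  (hgen : Degeneracy.ActsByHecke (traceAlg O (TWSet.rep (Q := Q) hj) TWSet.uVal) (Q.delta J)
    Q.badSet h.mem_badSet Q.aTW (TWSet.moduleBasis h.sub) h.upBasis (act hj hlift J)
    (act hj hlift (insert v J)) G)

include hj hlift hG hgen in
/-- The twisted eigensymbol of a new point. -/
theorem exists_twisted_symbol {e : ℤ} {θ : Q.Point C}
    (hθ : θ ∈ Degeneracy.newPts (h.alData (Q := Q)) h.prime h.not_dvd
      (h.unitScalar (Q := Q)) h.mem_badSet
      (TWSet.moduleBasis h.sub) h.upBasis (act hj hlift (insert v J)) (e : O) (pts (insert v J))) :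
    ∃ Ψ ∈ Lev (Kbar O) (Q.twLevel (Q.geomHom j θ.2) θ.1), Ψ ≠ 0 ∧
      (∀ l, l.Prime → l ∉ Q.levelPrimes θ.1 → l ∉ Q.badSet →
        tOp (Kbar O) l Ψ = j (θ.2 (Q.frobElt θ.1 l)) • Ψ) ∧
      uOp (Kbar O) v Ψ = (e : Kbar O) • Ψ := by
  classical
  have := finite_point (Q := Q) hj
  let := Fintype.ofFinite (Q.Point C)
  have : IsReduced (TW P n) := isReduced_twRing O P.p P.r n P.p_mem
  have : Module.Finite O (TW P n) := finite_twRing O P.p P.r n P.p_mem
  have hCinj : Function.Injective (algebraMap O C) := fun a b hab =>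
    algebraMap_kbar_injective O (by rw [← j.commutes, ← j.commutes, hab])
  obtain ⟨η, Φ, hη, hΦ, hΦ0, -, -, hU, hsc, hT⟩ := Degeneracy.exists_new_symbol h.alData h.prime
    h.not_dvd (h.unitScalar (Q := Q)) h.mem_badSet (TWSet.moduleBasis h.sub) h.upBasis
      (act hj hlift J)
    (act hj hlift (insert v J)) hG hgen h.unitScalar_sq
    (exists_act_scalar hj hlift h.insert_sub) h.ker_residue_upper hCinj (e : O) hθ
      (j : C →+* Kbar O) hj
  have hθJ : (θ.1 : Finset ℕ) = insert v J := hθ.1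
  obtain ⟨⟨J', hJ'⟩, x⟩ := θ
  obtain rfl : J' = insert v J := hθJ
  have hJ'' := h.insert_sub
  set φ := Q.geomHom j x with hφdef
  have hηφ : η = φ := by
    have key : ∀ a : TW P n, η a = φ a := fun a => by
      have ha : a ∈ Algebra.adjoin O (Set.range (twU O P.p P.r n)) := by
        rw [Q.adjoin_twU_eq_top]; trivial
      induction ha using Algebra.adjoin_induction with
      | mem y hy =>
        obtain ⟨i, rfl⟩ := hy
        exact (hsc (uElem O (TWSet.rep (Q := Q) hj) TWSet.uVal i) _ (by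
          rw [act_u hj hlift hJ'', Matrix.scalar_apply, ← Matrix.smul_one_eq_diagonal,
            twU])).trans rfl
      | algebraMap o =>
        rw [hη, hφdef, Q.geomHom_apply, AlgHom.commutes]
        rfl
      | add y z _ _ hy hz => rw [map_add, map_add, hy, hz]
      | mul y z _ _ hy hz => rw [map_mul, map_mul, hy, hz]
    exact RingHom.ext key
  subst hηφ
  obtain ⟨e1, e2⟩ := HeckePoints.symbChar_congr h.level_eq ((Q.delta (insert v J)).ringHomComp φ)
    (Degeneracy.upChar v ((Q.delta J).ringHomComp φ)) fun d hd => by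
      rw [MulChar.ringHomComp_apply, Q.delta_changeLevel h.level_eq d hd,
        ← Degeneracy.upChar_ringHomComp, MulChar.ringHomComp_apply]
  rw [← e1] at hΦ
  have hL := Q.level_eq_twM_mul φ (insert v J)
  let δL : DirichletCharacter (Kbar O) (Q.twM φ (insert v J) * ∏ t ∈ Q.twT φ, t) :=
    DirichletCharacter.changeLevel (dvd_of_eq hL) ((Q.delta (insert v J)).ringHomComp φ)
  obtain ⟨f1, f2⟩ := HeckePoints.symbChar_congr hL ((Q.delta (insert v J)).ringHomComp φ) δL
    fun d hd => by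
      rw [changeLevel_intCast _ _ _ (HeckePoints.isUnit_of_dvd hL.symm.dvd hd)]
  rw [f1] at hΦ
  obtain ⟨F, hF1, hF2, hF3, hF4⟩ := exists_twistMap (Q.twT φ)
    (fun t ht => twT_spec_prime φ ht) (Q.chiFam φ)
    (fun t ht => (Q.twT_spec φ ht).choose_spec.2.2.2) (Q.twM φ (insert v J))
    (Q.twM_ne_zero φ hJ'') (fun t ht => Q.not_dvd_twM φ hJ'' ht) 1 δL fun d hd => by
      rw [changeLevel_intCast _ _ _ hd,
        Q.delta_twT φ (insert v J) (HeckePoints.isUnit_of_dvd hL.dvd hd),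
        MulChar.one_apply (HeckePoints.isUnit_of_dvd (dvd_mul_right _ _) hd), one_mul]
  simp only [map_one] at hF1 hF3
  have hvt : ∀ t ∈ Q.twT φ, v ≠ t := fun t ht hvt => by
    obtain ⟨i, hi, -⟩ := Q.twT_spec φ ht
    exact h.notMem_q (Q := Q) i (hi.trans hvt.symm)
  refine ⟨F Φ, ?_, fun h0 => hΦ0 (hF2 Φ hΦ h0), fun l hl hlS hlb => ?_, ?_⟩
  · have := hF1 Φ hΦ
    rw [symbChar_eq_lev] at this
    exact this
  · have hlL := (Q.notMem_levelPrimes hJ'' hl).mp hlS
    have hl0 : ¬ l ∣ Q.twM φ (insert v J) * ∏ t ∈ Q.twT φ, t := fun hd =>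
      hlL ((hL ▸ hd).mul_right _)
    have hl1 : ¬ l ∣ Q.level J * v := fun hd => hlb (h.mem_badSet l hl hd)
    have hl2 : ¬ l ∣ Q.twM φ (insert v J) * ∏ t ∈ Q.twT φ, t ^ 2 := (not_dvd_twLevel hl hlL φ).1
    have hlq : ∀ i, ¬ Q.q i ∣ l := fun i => Q.not_dvd_q hl hlL i
    set s := trElem O (TWSet.rep (Q := Q) hj) TWSet.uVal (P.frob l)
    have hs := hT s (Ring.inverse (Q.twScalar l)) l hl hl1 (by
      rw [act_frob hj hlift hJ'' hl hlL (P.place_spec l hl) (P.frob_spec l hl),
        h.toMatrix_up hl hlb _ fun X => Degeneracy.coe_tE' _ _ _ _ hl hl1 X])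
    have hval : ((s : Q.Point C → C) ⟨⟨insert v J, hJ'⟩, x⟩) = x (Q.frobElt (insert v J) l) :=
      (trace_pointRep hj hJ'' x _).trans
        (pointTrace_frobenius hj hJ'' x hl hlL (P.place_spec l hl) (P.frob_spec l hl))
    rw [hval] at hs
    have hinv : φ (Ring.inverse (Q.twScalar l)) =
        ∏ t ∈ Q.twT φ, (Q.chiFam φ t)⁻¹ (l : ZMod t) := by
      have h1 := Q.prod_chiFam_inv_mul φ l hlq
      have h2 : φ (Q.twScalar l) * φ (Ring.inverse (Q.twScalar l)) = 1 := by
        rw [← map_mul, Ring.mul_inverse_cancel _ (Q.isUnit_twScalar hlq), map_one]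
      calc _ = ((∏ t ∈ Q.twT φ, (Q.chiFam φ t)⁻¹ (l : ZMod t)) * φ (Q.twScalar l)) *
            φ (Ring.inverse (Q.twScalar l)) := by rw [h1, one_mul]
        _ = _ := by rw [mul_assoc, h2, mul_one]
    rw [← tOpChar_one (L := Q.twM φ (insert v J) * ∏ t ∈ Q.twT φ, t ^ 2) hl hl2,
      hF3 l hl hl0 Φ hΦ, ← f2, e2, ← map_smul, ← hinv, hs, map_smul]
    rfl
  · rw [hF4 v h.prime hvt Φ hΦ, hU, map_smul, smul_smul, ← mul_assoc]
    have h1 := Q.prod_chiFam_inv_mul φ v h.not_q_dvd
    rw [show ((h.unitScalar (Q := Q) : (TW P n)ˣ) : TW P n) = Q.twScalar v from IsUnit.unit_spec _,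
      h1, one_mul, map_intCast, map_intCast]

include h in
/-- The level of the twist grows by `v`. -/
theorem twLevel_eq (φ : TW P n →+* Kbar O) :
    Q.twLevel φ (insert v J) = Q.twLevel φ J * v := by
  have hv : v ∉ P.minimal ∪ P.extra ∪ J := by
    simp only [Finset.mem_union, not_or]
    exact ⟨⟨fun hh => Finset.disjoint_left.mp P.disjoint_raise hh h.mem,
      fun hh => Finset.disjoint_left.mp P.disjoint_extra (Finset.mem_union_right _ h.mem) hh⟩,
      h.notMem⟩
  simp only [twLevel, twM, baseLevel, Finset.union_insert, Finset.prod_insert hv]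
  ring

include hj hlift hG hgen in
/-- A new point of sign `e` lies on a newform of level exactly divisible by `v` with `a_v = e`. -/
theorem exists_newform {e : ℤ} (he : e = 1 ∨ e = -1) {θ : Q.Point C}
    (hθ : θ ∈ Degeneracy.newPts (h.alData (Q := Q)) h.prime h.not_dvd
      (h.unitScalar (Q := Q)) h.mem_badSet
      (TWSet.moduleBasis h.sub) h.upBasis (act hj hlift (insert v J)) (e : O) (pts (insert v J))) :
    ∃ (S : Finset ℕ) (M : ℕ) (_ : NeZero M) (g : CuspForm (Gamma0 M) 2),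
      v ∣ M ∧ ¬ v ^ 2 ∣ M ∧ ModularFormClass.qCoeff g v = (e : ℂ) ∧
      LevelLowering.OnNewform (p_mem_of_isLocalHom P (C := C)) S (TWSet.rep hj θ) g := by
  classical
  obtain ⟨Ψ, hΨ, hΨ0, hΨT, hΨU⟩ := h.exists_twisted_symbol hj hlift hG hgen hθ
  have hθJ : (θ.1 : Finset ℕ) = insert v J := hθ.1
  obtain ⟨⟨J', hJ'⟩, x⟩ := θ
  obtain rfl : J' = insert v J := hθJ
  have hJ'' := h.insert_sub
  set φ := Q.geomHom j x
  rw [h.twLevel_eq φ] at hΨ
  have : NeZero (Q.twLevel φ J) := ⟨Q.twLevel_ne_zero φ h.sub⟩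
  have hvN : ¬ v ∣ Q.twLevel φ J := fun hd => h.not_dvd ((Q.dvd_twLevel_iff φ h.prime).mp hd)
  set S := Q.badSet ∪ Q.levelPrimes (insert v J)
  have hSd : ∀ l, l.Prime → l ∣ Q.twLevel φ J * v → l ∈ S := fun l hl hd => by
    refine Finset.mem_union_left _ (Q.mem_badSet_of_dvd_level hJ'' l hl ?_)
    rw [← h.twLevel_eq φ] at hd
    exact (Q.dvd_twLevel_iff φ hl).mp hd
  obtain ⟨F, ι, hc, Φ, hΦ, hΦ0, hΦT, hΦU⟩ := exists_complex_symbol S hSd
    (fun l => j (x (Q.frobElt (insert v J) l))) e hΨ hΨ0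
    (fun l hl hlS => hΨT l hl (fun hh => hlS (Finset.mem_union_right _ hh))
      fun hh => hlS (Finset.mem_union_left _ hh)) hΨU
  obtain ⟨ℓ, hℓ, hℓS, hmod, hne⟩ := exists_non_eisenstein P S
    (mul_ne_zero (NeZero.ne (Q.twLevel φ J)) h.prime.ne_zero)
  obtain ⟨M, g, hML, hvM, hg, hgv, hgl⟩ := exists_newform_of_uOp_eigen h.prime hvN hΦ hΦ0 S hSd
    (fun l => ι ⟨j (x (Q.frobElt (insert v J) l)), hc l⟩) (e : ℂ)
    (by rcases he with rfl | rfl <;> simp) hΦT hΦU
    ⟨ℓ, hℓ, hℓS, hmod, fun h1 => hne (by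
      have h2 : x (Q.frobElt (insert v J) ℓ) = 1 + ℓ := hj (by
        have := congrArg Subtype.val (ι.injective
          (h1.trans (by rw [map_add, map_one, map_natCast] : _ = ι (1 + (ℓ : F)))))
        simpa using this)
      refine (ResidueField.map (algebraMap O C)).injective ?_
      rw [ResidueField.map_residue, ResidueField.map_residue,
        ← Q.residue_frobElt hJ'' x hℓ (fun hh => hℓS (Finset.mem_union_left _ hh)), h2,
        map_add (algebraMap O C), map_one (algebraMap O C), map_natCast (algebraMap O C)])⟩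
  have hM0 : NeZero M := ⟨fun h0 => mul_ne_zero (NeZero.ne (Q.twLevel φ J)) h.prime.ne_zero
    (Nat.eq_zero_of_zero_dvd (h0 ▸ hML))⟩
  refine ⟨S, M, hM0, g, hvM, fun h2 => ?_, hgv, ?_⟩
  · refine not_sq_dvd_twLevel hJ'' φ h.prime (h.notMem_q (Q := Q)) ?_
    rw [h.twLevel_eq φ]
    exact h2.trans hML
  · refine LevelLowering.onNewform_of_coeff (j : C →+* Kbar O) hj hg
      (Finset.mem_union_left _ (by simp [badSet])) (fun q hq hqM => hSd q hq (hqM.trans hML))
      (matCont_pointRep hj hJ'' x) (det_pointRep_cycChar hj hJ'' x) ι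
      (fun l => x (Q.frobElt (insert v J) l)) (fun l hl hlS => ⟨hc l, hgl l hl hlS⟩)
      fun l hl hlS A hA σ hσ => ?_
    exact (trace_pointRep hj hJ'' x _).trans (pointTrace_frobenius hj hJ'' x hl
      ((Q.notMem_levelPrimes hJ'' hl).mp fun hh => hlS (Finset.mem_union_right _ hh)) hA hσ)

include hj hlift hG hgen in
/-- A new point of sign `e` is Steinberg of sign `e` at `v ≠ p`. -/
theorem steinberg_of_new (hvp : v ≠ P.p) {e : O} (he : e = 1 ∨ e = -1) {θ : Q.Point C}
    (hθ : θ ∈ Degeneracy.newPts (h.alData (Q := Q)) h.prime h.not_dvd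
      (h.unitScalar (Q := Q)) h.mem_badSet
      (TWSet.moduleBasis h.sub) h.upBasis (act hj hlift (insert v J)) e (pts (insert v J))) :
    SteinbergAt (TWSet.rep hj θ) v (algebraMap O C e) := by
  obtain ⟨e', he', rfl⟩ : ∃ e' : ℤ, (e' = 1 ∨ e' = -1) ∧ (e' : O) = e := by
    rcases he with rfl | rfl
    exacts [⟨1, Or.inl rfl, Int.cast_one⟩, ⟨-1, Or.inr rfl, by simp⟩]
  obtain ⟨S, M, hM0, g, hvM, hv2, hgv, H⟩ := h.exists_newform hj hlift hG hgen he' hθ
  obtain ⟨θ', hker, -, T, hT⟩ := H.exists_attached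
  obtain ⟨ε, -, hεq, hst⟩ := steinbergAt_qCoeff (p_mem_of_isLocalHom P (C := C)) h.prime hvp hvM
    hv2 H.isNewform S θ' hker T (TWSet.rep hj θ) hT
  obtain rfl : ε = e' := by exact_mod_cast (hεq.symm.trans hgv)
  rwa [map_intCast]

end RaiseStep

namespace RaiseStep

open TWSet

variable {J : Finset ℕ} (h : RaiseStep P J P.p)
  {G : Set (traceAlg O (TWSet.rep (Q := Q) hj) TWSet.uVal)} (hG : Algebra.adjoin O G = ⊤)
  (hgen : Degeneracy.ActsByHecke (traceAlg O (TWSet.rep (Q := Q) hj) TWSet.uVal) (Q.delta J)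
    Q.badSet h.mem_badSet Q.aTW (TWSet.moduleBasis h.sub) h.upBasis (act hj hlift J)
    (act hj hlift (insert P.p J)) G)

include hj hlift hG hgen in
/-- A point new at `p` of either sign is strictly ordinary with the sign of the problem. -/
theorem strict_of_new {e : O} (he : e = 1 ∨ e = -1) {θ : Q.Point C}
    (hθ : θ ∈ Degeneracy.newPts (h.alData (Q := Q)) h.prime h.not_dvd
      (h.unitScalar (Q := Q)) h.mem_badSet
      (TWSet.moduleBasis h.sub) h.upBasis (act hj hlift (insert P.p J)) e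
        (pts (insert P.p J))) :
    StrictAt (TWSet.rep hj θ) P.p (algebraMap O C (P.ε P.p)) := by
  obtain ⟨e', he', rfl⟩ : ∃ e' : ℤ, (e' = 1 ∨ e' = -1) ∧ (e' : O) = e := by
    rcases he with rfl | rfl
    exacts [⟨1, Or.inl rfl, Int.cast_one⟩, ⟨-1, Or.inr rfl, by simp⟩]
  obtain ⟨S, M, hM0, g, hvM, hv2, -, H⟩ := h.exists_newform hj hlift hG hgen he' hθ
  obtain ⟨ε, hε, hstr⟩ :=
    H.exists_strictAt P.hp2 (absIrreducible_pointRep hj (point_subset θ) θ.2) hvM hv2
  exact strictAt_sign hj (point_subset θ) θ.2 (Finset.mem_union_right _ h.mem) hε hstr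

end RaiseStep

end FLTAgent.PointsDatum

namespace FLTAgent.PointsDatum.TWSet

open FLTAgent.ModularityLifting FLTAgent.DefRing FLTAgent.HeckePoints IsLocalRing

variable {O : Type} [CommRing O] [IsDomain O] [IsDiscreteValuationRing O] {P : LiftProblem O}
  {n : ℕ} {Q : TWSet P n} [Fact P.p.Prime] [IsAdicComplete (maximalIdeal O) O]
  [Finite (ResidueField O)] [CharZero O] [ExtraThree P]
  {C : Type} [CommRing C] [IsDomain C] [IsDiscreteValuationRing C] [Algebra O C]
  [IsLocalHom (algebraMap O C)] [IsAdicComplete (maximalIdeal C) C] [Module.Finite O C] [CharZero C]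
  [Finite (ResidueField C)]
  {j : C →ₐ[O] Kbar O} (hj : Function.Injective j) (hlift : Q.AllPointsLift j)

/-- A point new at `v ≠ p` is Steinberg there with the sign of the problem. -/
theorem dgNew_steinberg {J : Finset ℕ} (hJ : J ⊆ P.raise) {v : ℕ} (hv : v ∈ P.raise) (hvJ : v ∉ J)
    (hvp : v ≠ P.p) (θ : Q.Point C) (hθ : θ ∈ dgNew hj hlift J v) :
    SteinbergAt (rep hj θ) v (algebraMap O C (P.ε v)) := by
  have h : RaiseStep P J v := ⟨hJ, hv, hvJ⟩
  rw [dgNew_eq hj hlift h hvp] at hθ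
  exact h.steinberg_of_new hj hlift (adjoin_frob_eq_top hj) (h.actsByHecke hj hlift) hvp (P.sign v)
    hθ

/-- A point new at `p` is strictly ordinary there with the sign of the problem. -/
theorem dgNew_strict {J : Finset ℕ} (hJ : J ⊆ P.raise)
    (hv : P.p ∈ P.raise) (hvJ : P.p ∉ J) (θ : Q.Point C) (hθ : θ ∈ dgNew hj hlift J P.p) :
    StrictAt (rep hj θ) P.p (algebraMap O C (P.ε P.p)) := by
  have h : RaiseStep P J P.p := ⟨hJ, hv, hvJ⟩
  rw [dgNew_eq_p hj hlift h] at hθ
  rcases hθ with hθ | hθ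
  · exact h.strict_of_new hj hlift (adjoin_frob_eq_top hj) (h.actsByHecke hj hlift)
      (Or.inl rfl) hθ
  · exact h.strict_of_new hj hlift (adjoin_frob_eq_top hj) (h.actsByHecke hj hlift)
      (Or.inr rfl) hθ

end FLTAgent.PointsDatum.TWSet
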