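import Fermat.Agent.ModularityLifting.Degeneracy.Provider.Maps
import Fermat.Agent.ModularityLifting.PointsDatum.Local
import Fermat.Agent.ModularityLifting.EigenvalueP.Main

/-!
# The degeneracy map at `p` is not surjective modulo the maximal ideal

At the level without raising primes an eigenvalue of the normalised `T_p` at a point is congruent to
the sign of the strictly ordinary residual representation, so that `T_p` minus the sign is singular
modulo the maximal ideal.
-/

set_option autoImplicit false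
set_option linter.unusedSectionVars false

noncomputable section

open IsLocalRing Matrix

namespace FLTAgent.PointsDatum.TWSet

open FLTAgent.LevelRaising FLTAgent.ModularityLifting FLTAgent.DefRing FLTAgent.HeckePoints
  FLTAgent.GaloisAttach
open FLTAgent.Density (GalQ Qbar)

variable {O : Type} [CommRing O] [IsDomain O] [IsDiscreteValuationRing O] {P : LiftProblem O}
  {n : ℕ} {Q : TWSet P n} [Fact P.p.Prime] [IsAdicComplete (maximalIdeal O) O]
  [Finite (ResidueField O)] [CharZero O] [ExtraThree P]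
  {C : Type} [CommRing C] [IsDomain C] [IsDiscreteValuationRing C] [Algebra O C]
  [IsLocalHom (algebraMap O C)] [IsAdicComplete (maximalIdeal C) C] [Module.Finite O C] [CharZero C]
  [Finite (ResidueField C)]
  {j : C →ₐ[O] Kbar O} (hj : Function.Injective j) (hlift : Q.AllPointsLift j)

include hlift in
/-- A level of positive rank has a point. -/
theorem exists_levelPoint {J : Finset ℕ} (hJ : J ⊆ P.raise) (hd : 0 < Q.rank J) :
    Nonempty (Q.heckeAlg J →ₐ[O] C) := by
  have : Nonempty (Fin (Q.rank J)) := ⟨⟨0, hd⟩⟩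
  have : Nontrivial (Q.heckeAlg J) := ⟨⟨0, 1, fun h => zero_ne_one (congrArg Subtype.val h)⟩⟩
  by_contra hne
  refine not_isNilpotent_one (R := Q.heckeAlg J)
    (isNilpotent_of_forall_point O (Q.heckeAlg J) fun f => ?_)
  obtain ⟨x, -⟩ := hlift J hJ f
  exact absurd ⟨x⟩ hne

/-- A point of a level has an eigenvector on which the normalised `T_v` also acts by a scalar. -/
theorem exists_eigen_normalised {J : Finset ℕ} (hJ : J ⊆ P.raise) (x : Q.heckeAlg J →ₐ[O] C)
    {v : ℕ} (hv : v.Prime) (hvL : ¬ v ∣ Q.level J) :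
    ∃ (w : Fin (Q.rank J) → Kbar O) (μ : Kbar O), w ≠ 0 ∧ IsIntegral O μ ∧
      (Ring.inverse (Q.twScalar v) • (Q.basis hJ).tMat v).map (Q.geomHom j x) *ᵥ w = μ • w ∧
      ∀ l, (Q.tm J l).map (Q.geomHom j x) *ᵥ w = j (x (Q.tH J l)) • w := by
  classical
  set φ := Q.geomHom j x with hφ
  set M := Ring.inverse (Q.twScalar v) • (Q.basis hJ).tMat v with hM
  obtain ⟨w₀, hw₀, hw₀e⟩ := exists_eigenvector (Q.heckeAlg J).val φ
    (j.comp x : Q.heckeAlg J →ₐ[O] Kbar O).toRingHom (fun _ => rfl) fun t ht => by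
      rw [show t = 0 from Subtype.ext ht, map_zero]
  let V : Submodule (Kbar O) (Fin (Q.rank J) → Kbar O) :=
    ⨅ l : ℕ, LinearMap.ker (((Q.tm J l).map φ).mulVecLin - j (x (Q.tH J l)) • LinearMap.id)
  have hV : ∀ w, w ∈ V ↔ ∀ l, (Q.tm J l).map φ *ᵥ w = j (x (Q.tH J l)) • w := fun w => by
    simp [V, Submodule.mem_iInf, sub_eq_zero]
  have hT : ∀ l, Q.tm J l * (Q.basis hJ).tMat v = (Q.basis hJ).tMat v * Q.tm J l := fun l => by
    unfold tm
    split_ifs with h
    · exact (Q.basis h.1).tMat_comm (Q.mem_badSet_of_dvd_level h.1) h.2.1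
        (fun hd => h.2.2 (hd.mul_right _)) hv hvL
    · rw [Matrix.mul_zero, Matrix.zero_mul]
  have hcomm : ∀ l, Q.tm J l * M = M * Q.tm J l := fun l => by
    rw [hM, Matrix.smul_eq_diagonal_mul, ← Matrix.scalar_apply, ← Matrix.mul_assoc,
      ← (Matrix.scalar_commute (Ring.inverse (Q.twScalar v)) (fun _ => Commute.all _ _)
        (Q.tm J l)).eq, Matrix.mul_assoc, hT l, Matrix.mul_assoc]
  have hmap : ∀ w ∈ V, (M.map φ).mulVecLin w ∈ V := fun w hw => by
    refine (hV _).mpr fun l => ?_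
    rw [Matrix.mulVecLin_apply, Matrix.mulVec_mulVec, ← Matrix.map_mul, hcomm, Matrix.map_mul,
      ← Matrix.mulVec_mulVec, (hV w).mp hw l, Matrix.mulVec_smul]
  have : Nontrivial V := ⟨⟨w₀, (hV _).mpr fun l => hw₀e (Q.tH J l)⟩, 0,
    fun h => hw₀ (congrArg Subtype.val h)⟩
  obtain ⟨μ, hμ⟩ := Module.End.exists_eigenvalue ((M.map φ).mulVecLin.restrict hmap)
  obtain ⟨w, hw⟩ := hμ.exists_hasEigenvector
  have hMw : M.map φ *ᵥ (w : Fin (Q.rank J) → Kbar O) = μ • (w : Fin (Q.rank J) → Kbar O) :=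
    congrArg Subtype.val (Module.End.HasEigenvector.apply_eq_smul hw)
  have hw0 : (w : Fin (Q.rank J) → Kbar O) ≠ 0 := fun h => hw.2 (Subtype.ext h)
  refine ⟨w, μ, hw0, ?_, hMw, (hV _).mp w.2⟩
  have : Module.Finite O (TW P n) := finite_twRing O P.p P.r n P.p_mem
  obtain ⟨R, hR, hR0⟩ := IsIntegral.of_finite O M
  refine ⟨R, hR, ?_⟩
  rw [← Polynomial.aeval_def] at hR0 ⊢
  have h1 : Polynomial.aeval (M.map φ) R = 0 := by
    rw [show M.map φ = ((j.comp (Q.pointHom x)).mapMatrix : _ →ₐ[O] _) M from rfl,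
      Polynomial.aeval_algHom_apply, hR0, map_zero]
  have h2 : ∀ (q : Polynomial O), Polynomial.aeval (M.map φ) q *ᵥ (w : Fin (Q.rank J) → Kbar O) =
      Polynomial.aeval μ q • (w : Fin (Q.rank J) → Kbar O) := by
    intro q
    induction q using Polynomial.induction_on with
    | C a =>
      rw [Polynomial.aeval_C, Polynomial.aeval_C,
        IsScalarTower.algebraMap_apply O (Kbar O) (Matrix _ _ (Kbar O)),
        Algebra.algebraMap_eq_smul_one, Matrix.smul_mulVec, Matrix.one_mulVec]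
    | add p q hp hq => rw [map_add, map_add, Matrix.add_mulVec, hp, hq, add_smul]
    | monomial m a ih =>
      rw [pow_succ, ← mul_assoc, map_mul (Polynomial.aeval (M.map φ)), Polynomial.aeval_X,
        ← Matrix.mulVec_mulVec, hMw, Matrix.mulVec_smul, ih, smul_smul,
        map_mul (Polynomial.aeval μ) _ Polynomial.X, Polynomial.aeval_X, mul_comm μ]
  have h3 := h2 R
  rw [h1, Matrix.zero_mulVec] at h3
  exact (smul_eq_zero.mp h3.symm).resolve_right hw0

include hj hlift in
/-- The normalised `T_p` minus the sign of the problem is singular modulo the maximal ideal. -/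
theorem not_isUnit_det_normalised {J : Finset ℕ} (hJ : J ⊆ P.raise) (hpmem : P.p ∈ P.raise)
    (hpJ : P.p ∉ J) (hd : 0 < Q.rank J) :
    ¬ IsUnit ((Ring.inverse (Q.twScalar P.p) • (Q.basis hJ).tMat P.p) -
      algebraMap O (TW P n) (P.ε P.p) • 1).det := by
  classical
  have hpL : ¬ P.p ∣ Q.level J := Q.not_dvd_level_of_notMem hJ hpmem hpJ
  obtain ⟨x⟩ := exists_levelPoint hlift hJ hd
  obtain ⟨w, μ, hw0, hμ, hMw, hTw⟩ := exists_eigen_normalised (j := j) hJ x P.hp hpL
  set φ := Q.geomHom j x with hφ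
  set M := Ring.inverse (Q.twScalar P.p) • (Q.basis hJ).tMat P.p with hM
  have hpq : ∀ i, ¬ Q.q i ∣ P.p := fun i hh =>
    (Q.q_prime i).2.2 ((Nat.prime_dvd_prime_iff_eq (Q.q_prime i).1 P.hp).mp hh)
  -- coefficients containing the eigenvalue
  obtain ⟨C', iC, iD, iV, iA, iF, iZ, iAlg, iFin, -, iL, ι, j', hj', hι, hsub⟩ :=
    exists_coeff_extend O j {μ} (Set.finite_singleton μ) (by rintro _ rfl; exact hμ)
  obtain ⟨μ', hμ'⟩ : μ ∈ Set.range j' := hsub rfl
  have hιloc : IsLocalHom (ι : C →+* C') := isLocalHom_of_finite ι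
  have hpC' : (P.p : C') ∈ maximalIdeal C' := p_mem_of_isLocalHom P
  -- the symbol and its twist
  set S := (Q.levelPrimes J).erase P.p
  let a : ℕ → Kbar O := fun l => if l = P.p then φ (Q.twScalar P.p) * μ else j (x (Q.tH J l))
  set Φ := comb (Q.symb hJ φ) w with hΦdef
  have hΦ : Φ ∈ SymbChar (Kbar O) ((Q.delta J).ringHomComp φ) := Q.comb_mem_symbChar hJ φ w
  have hΦ0 : Φ ≠ 0 := fun h0 => hw0 (Q.symb_comb_injective hJ φ (h0.trans (map_zero _).symm))
  have hmemS : ∀ l, l.Prime → l ∉ S → l = P.p ∨ ¬ l ∣ Q.level J * P.p := fun l hl hlS => by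
    by_cases hlp : l = P.p
    · exact Or.inl hlp
    · exact Or.inr ((Q.notMem_levelPrimes hJ hl).mp fun hh =>
        hlS (Finset.mem_erase.mpr ⟨hlp, hh⟩))
  have hne0 : φ (Q.twScalar P.p) ≠ 0 := ((Q.isUnit_twScalar hpq).map φ).ne_zero
  have hTM : (Q.basis hJ).tMat P.p = Q.twScalar P.p • M := by
    rw [hM, smul_smul, Ring.mul_inverse_cancel _ (Q.isUnit_twScalar hpq), one_smul]
  have ha : ∀ l, l.Prime → l ∉ S →
      tOpChar (Kbar O) ((Q.delta J).ringHomComp φ) l Φ = a l • Φ := fun l hl hlS => by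
    rcases eq_or_ne l P.p with hlp | hlp
    · subst hlp
      have h1 := apply_comb φ (tOpChar (TW P n) (Q.delta J) P.p)
        (tOpChar (Kbar O) ((Q.delta J).ringHomComp φ) P.p) (fun X => mapVal_tOpChar φ P.p X)
        ((Q.basis hJ).tOp_b (Q.mem_badSet_of_dvd_level hJ) P.hp hpL) w
      refine h1.trans ?_
      rw [hTM, Matrix.map_smul' _ _ _ (map_mul φ), Matrix.smul_mulVec, hMw, smul_smul, map_smul]
      simp [a, hΦdef]
      rfl
    · have hlL := (hmemS l hl hlS).resolve_left hlp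
      rw [hΦdef, Q.tOpChar_comb hJ φ hl hlL, hTw l, map_smul]
      simp [a, hlp]
  have hval : ∀ l, l.Prime → ¬ l ∣ Q.level J * P.p →
      (∏ t ∈ Q.twT φ, (Q.chiFam φ t)⁻¹ (l : ZMod t)) * a l = j (x (Q.frobElt J l)) := by
    intro l hl hlL
    have hlp : l ≠ P.p := fun hh => hlL (hh ▸ dvd_mul_left _ _)
    have h1 := Q.prod_chiFam_inv_mul φ l fun i => Q.not_dvd_q hl hlL i
    rw [hφ, Q.geomHom_apply j x] at h1
    have h2 : a l = j (x (Q.frobElt J l)) * j (Q.pointHom x (Q.twScalar l)) := by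
      rw [← map_mul, Q.pointHom_twScalar_mul x hl hlL]
      simp [a, hlp]
    rw [h2]
    linear_combination j (x (Q.frobElt J l)) * h1
  have hvalp : (∏ t ∈ Q.twT φ, (Q.chiFam φ t)⁻¹ (P.p : ZMod t)) * a P.p = μ := by
    simp only [a, if_true]
    rw [← mul_assoc, Q.prod_chiFam_inv_mul φ P.p hpq, one_mul]
  have hint : ∀ l, l.Prime → l ∉ S →
      (∏ t ∈ Q.twT φ, (Q.chiFam φ t)⁻¹ (l : ZMod t)) * a l ∈ Set.range (j' : C' →+* Kbar O) := by
    intro l hl hlS
    rcases hmemS l hl hlS with rfl | hlL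
    · exact ⟨μ', hμ'.trans hvalp.symm⟩
    · exact ⟨ι (x (Q.frobElt J l)), (hι _).trans (hval l hl hlL).symm⟩
  have : NeZero (Q.twLevel φ J) := ⟨Q.twLevel_ne_zero φ hJ⟩
  have hne : ∃ ℓ, ℓ.Prime ∧ ℓ ∉ S ∧ ℓ % Q.twLevel φ J = 1 % Q.twLevel φ J ∧
      (∏ t ∈ Q.twT φ, (Q.chiFam φ t)⁻¹ (ℓ : ZMod t)) * a ℓ ≠ 1 + ℓ := by
    obtain ⟨ℓ, hℓ, hℓS, hmod, h⟩ := exists_non_eisenstein P Q.badSet (Q.twLevel_ne_zero φ hJ)
    have hℓL : ¬ ℓ ∣ Q.level J * P.p := fun hh => hℓS (Q.mem_badSet_of_dvd hJ hℓ hh)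
    refine ⟨ℓ, hℓ, fun hh => (Q.notMem_levelPrimes hJ hℓ).mpr hℓL (Finset.mem_of_mem_erase hh),
      hmod, fun he => h ?_⟩
    rw [hval ℓ hℓ hℓL] at he
    have he' : x (Q.frobElt J ℓ) = 1 + ℓ := hj (by rw [he, map_add, map_one, map_natCast])
    refine (ResidueField.map (algebraMap O C)).injective ?_
    rw [ResidueField.map_residue, ResidueField.map_residue, ← Q.residue_frobElt hJ x hℓ hℓS, he',
      map_add (algebraMap O C), map_one (algebraMap O C), map_natCast (algebraMap O C)]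
  obtain ⟨-, -, -, -, θ, hθ, A, hA⟩ := exists_twisted_trace (maximalIdeal C') hpC'
    (j' : C' →+* Kbar O) hj' (Q.twT φ) (fun t ht => (Q.twT_spec φ ht).choose_spec.2.1)
    (Q.chiFam φ) (fun t ht => (Q.twT_spec φ ht).choose_spec.2.2.2)
    (fun t ht => Q.not_dvd_twM φ hJ ht) (Q.level_eq_twM_mul φ J)
    (show Q.twLevel φ J = _ from rfl)
    ((Q.delta J).ringHomComp φ) (fun d hd => Q.delta_twT φ J hd) S
    (fun l hl hlL => Finset.mem_erase.mpr ⟨fun hh => hpL (hh ▸ hlL), by
      by_contra hh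
      exact (Q.notMem_levelPrimes hJ hl).mp hh (hlL.mul_right _)⟩)
    a hΦ hΦ0 ha hint hne
  -- the representation over the larger coefficients
  set ρ' := mapRep (ι : C →+* C') (pointRep hj hJ x) with hρ'
  have hcont : MatCont ρ' := (matCont_pointRep hj hJ x).map _ hιloc
  have htr : ∀ σ, (ρ' σ).trace = A.f σ := by
    obtain ⟨h1, h2⟩ := traceCont_of_attached A
    refine fun σ => congrFun (eq_of_frobenius frobeniusDivisions
      (LevelLowering.isPseudoRep_trace ρ') h1 (LevelLowering.traceCont_of_matCont hcont) h2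
      (Q.levelPrimes J) fun l hl hlS B hB F hF => ?_).1 σ
    have hlL := (Q.notMem_levelPrimes hJ hl).mp hlS
    obtain ⟨hlt, -, hlp, -⟩ := not_dvd_twLevel hl hlL φ
    have hlS' : l ∉ (S : Set ℕ) := fun hh => hlS (Finset.mem_of_mem_erase (Finset.mem_coe.mp hh))
    obtain ⟨e1, e2⟩ := A.frob l hl hlt hlS' hlp B hB F hF
    refine ⟨?_, ?_⟩
    · rw [e1]
      refine hj' ((?_ : j' (ρ' F).trace = _).trans (hθ l hl hlt hlS').symm)
      rw [hval l hl hlL, ← hι, ← pointTrace_frobenius hj hJ x hl hlL hB hF,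
        ← trace_pointRep hj hJ x F, hρ', Start.mapRep_trace]
      rfl
    · rw [e2, LevelLowering.detChar_apply, hρ', Start.mapRep_det, det_pointRep_cycChar hj hJ x,
        cycChar_frobenius _ hl hlp hB hF, map_natCast]
  have hres : mapRep (residue C') ρ' =
      mapRep (ResidueField.map (ι : C →+* C')) (mapRep (residue C) (pointRep hj hJ x)) :=
    MonoidHom.ext fun σ => Matrix.ext fun a b => by
      simp only [hρ', Start.mapRep_eq, RingHom.mapMatrix_apply, Matrix.map_apply,
        ResidueField.map_residue]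
  have hirr : AbsIrreducibleOn (mapRep (residue C') ρ') ⊤ := by
    rw [hres]
    exact Start.absIrreducibleOn_map _ (absIrreducible_pointRep hj hJ x)
  obtain ⟨g0, hg0⟩ := exists_conj_residual hj hJ x
  have hstr0 : StrictAt (mapRep (residue C) (pointRep hj hJ x)) P.p
      (ResidueField.map (algebraMap O C) (residue O (P.ε P.p))) :=
    (localProps_conj (g := g0) (fun σ => by rw [hg0, Engine.conjRep_apply]; rfl) P.p _).2.2.1
      (Start.strictAt_map _ (Start.strictAt_map (residue O)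
        (P.strict (Finset.mem_union_right _ hpmem))))
  have hstr := Start.strictAt_map (ResidueField.map (ι : C →+* C')) hstr0
  rw [← hres] at hstr
  have hpt : ¬ P.p ∣ Q.twLevel φ J := fun hh => hpL ((Q.dvd_twLevel_iff φ P.hp).mp hh)
  have key := eigenvalue_p_of_residual P.p P.hp2 hpC' hpt S (Finset.notMem_erase _ _) P.hp θ A ρ'
    hcont htr hirr _ hstr
  have hθp : θ (CuspForm.heckeAlgebra.T P.hp hpt
      (fun hh => Finset.notMem_erase P.p (Q.levelPrimes J) (Finset.mem_coe.mp hh))) = μ' :=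
    hj' ((hθ P.p P.hp hpt _).trans (hvalp.trans hμ'.symm))
  have keyμ : residue C' μ' = residue C' (algebraMap O C' (P.ε P.p)) := by
    rw [← hθp]
    refine key.trans ?_
    rw [ResidueField.map_residue, ResidueField.map_residue]
    exact congrArg (residue C') (ι.commutes _)
  -- the determinant at the point
  intro hu
  let ψ : TW P n →ₐ[O] C' := ι.comp (Q.pointHom x)
  have hψ : ∀ y, j' (ψ y) = φ y := fun y => hι _
  have h0 : (M.map ψ - μ' • 1).det = 0 := by
    refine hj' ?_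
    rw [map_zero, show j' (M.map ψ - μ' • 1).det = (j' : C' →+* Kbar O) (M.map ψ - μ' • 1).det
      from rfl, RingHom.map_det]
    refine Matrix.exists_mulVec_eq_zero_iff.mp ⟨w, hw0, ?_⟩
    have e : (j' : C' →+* Kbar O).mapMatrix (M.map ψ - μ' • 1) = M.map φ - μ • 1 := by
      ext a b
      by_cases hab : a = b <;> simp [hab, hψ, hμ']
    rw [e, Matrix.sub_mulVec, hMw, Matrix.smul_mulVec, Matrix.one_mulVec, sub_self]
  have h1 : residue C' (ψ (M - algebraMap O (TW P n) (P.ε P.p) • 1).det) =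
      residue C' (M.map ψ - μ' • 1).det := by
    rw [show ψ (M - algebraMap O (TW P n) (P.ε P.p) • 1).det =
      (ψ : TW P n →+* C') (M - algebraMap O (TW P n) (P.ε P.p) • 1).det from rfl,
      RingHom.map_det, RingHom.map_det, RingHom.map_det]
    congr 1
    ext a b
    by_cases hab : a = b <;> simp [hab, keyμ, Algebra.smul_def, Matrix.algebraMap_matrix_apply]
  rw [h0, map_zero] at h1
  exact (residue_ne_zero_iff_isUnit _).mpr (hu.map ψ) h1

include hj hlift in
/-- The degeneracy map at `p` from the bottom level is not surjective modulo the maximal ideal. -/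
theorem dgCoker_p (hd : 0 < Q.rank ∅) (hp : P.p ∈ P.raise) :
    ∃ a b, IsUnit ((dgAlpha (Q := Q) ∅ P.p * dgAlphaInv ∅ P.p - 1 :
      Matrix (Fin (Q.rank (insert P.p ∅))) (Fin (Q.rank (insert P.p ∅))) (TW P n)) a b) := by
  have h : RaiseStep P ∅ P.p := ⟨Finset.empty_subset _, hp, Finset.notMem_empty _⟩
  rw [dgAlpha, dgAlphaInv, dif_pos h, dif_pos h]
  refine Degeneracy.exists_unit_entry _ h.prime h.not_dvd _ _ _ _ h.unitScalar_sq
    (h.exists_alpha_inv (Q := Q)).choose_spec (h.exists_beta_inv (Q := Q)).choose_spec ?_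
    (ε := algebraMap O (TW P n) (P.ε P.p)) ?_ ?_
  · have := isLocalHom_twRing O P.p P.r n P.p_mem
    rw [← map_natCast (algebraMap O (TW P n))]
    exact map_nonunit _ _ P.p_mem
  · rcases P.sign P.p with hs | hs <;> simp only [hs, map_one, map_neg] <;> ring
  · rw [h.toMatrix_tMat h.prime h.not_dvd, h.inv_unitScalar]
    exact not_isUnit_det_normalised hj hlift h.sub hp h.notMem hd

end FLTAgent.PointsDatum.TWSet
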