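import Fermat.Agent.ModularityLifting.PointsDatum.Action
import Fermat.Agent.ModularityLifting.Degeneracy.Package
import Fermat.Agent.ModularityLifting.Degeneracy.Inverse
import Fermat.Agent.ModularityLifting.Degeneracy.ModP

/-!
# The degeneracy maps between two levels of a set of Taylor–Wiles primes: levels and bases

For `v` in the raising set and outside `J`: the level of `insert v J` as the level of `J` times
`v`, the bases at both levels, the residual input and the invertibility of `T² - (v + 1)²`.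
-/

set_option autoImplicit false
set_option linter.unusedSectionVars false

noncomputable section

open IsLocalRing Matrix Polynomial

namespace FLTAgent.PointsDatum

open FLTAgent.LevelRaising FLTAgent.ModularityLifting FLTAgent.DefRing FLTAgent.HeckePoints

variable {O : Type} [CommRing O] [IsDomain O] [IsDiscreteValuationRing O] {P : LiftProblem O}
  {n : ℕ} {Q : TWSet P n} [Fact P.p.Prime] [IsAdicComplete (maximalIdeal O) O]
  [Finite (ResidueField O)] [CharZero O] [ExtraThree P]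

/-- A prime at which the level is raised from a set of raising primes. -/
structure RaiseStep (P : LiftProblem O) (J : Finset ℕ) (v : ℕ) : Prop where
  sub : J ⊆ P.raise
  mem : v ∈ P.raise
  notMem : v ∉ J

namespace RaiseStep

variable {J : Finset ℕ} {v : ℕ} (h : RaiseStep P J v)
include h

theorem insert_sub : insert v J ⊆ P.raise := Finset.insert_subset h.mem h.sub

theorem prime : v.Prime := P.prime v (by simp [h.mem])

theorem not_dvd : ¬ v ∣ Q.level J := Q.not_dvd_level_of_notMem h.sub h.mem h.notMem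

theorem notMem_q (i : Fin P.r) : Q.q i ≠ v :=
  fun e => (Q.q_prime i).2.1 (by simp [LiftProblem.loc, e, h.mem])

theorem not_q_dvd (i : Fin P.r) : ¬ Q.q i ∣ v := fun hd =>
  h.notMem_q i ((Nat.prime_dvd_prime_iff_eq (Q.q_prime i).1 h.prime).mp hd)

theorem level_eq : Q.level (insert v J) = Q.level J * v := Q.level_insert h.mem h.notMem

theorem mem_badSet (l : ℕ) (hl : l.Prime) (hd : l ∣ Q.level J * v) : l ∈ Q.badSet :=
  Q.mem_badSet_of_dvd_level h.insert_sub l hl (h.level_eq ▸ hd)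

/-- The two descriptions of the upper eigenpart and of its operators agree. -/
theorem congr_level :
    eigenPart (TW P n) (Q.delta (insert v J)) Q.badSet Q.aTW =
        eigenPart (TW P n) (Degeneracy.upChar v (Q.delta J)) Q.badSet Q.aTW ∧
      ∀ l, tOpChar (TW P n) (Q.delta (insert v J)) l =
        tOpChar (TW P n) (Degeneracy.upChar v (Q.delta J)) l :=
  eigenPart_congr h.level_eq (Q.delta (insert v J)) (Degeneracy.upChar v (Q.delta J))
    (fun d hd => Q.delta_changeLevel h.level_eq d hd) Q.badSet Q.aTW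

/-- The Atkin–Lehner datum. -/
def alData : ALData (Q.level J) v := (exists_alData h.prime h.not_dvd).some

/-- The normalising scalar. -/
def unitScalar : (TW P n)ˣ := (Q.isUnit_twScalar (d := v) h.not_q_dvd).unit

theorem unitScalar_sq :
    ((h.unitScalar (Q := Q) : (TW P n)ˣ) : TW P n) * (h.unitScalar (Q := Q) : (TW P n)ˣ) =
      Q.delta J (v : ZMod (Q.level J)) := by
  rw [unitScalar, IsUnit.unit_spec]
  exact Q.twScalar_mul_self J (h.prime.coprime_iff_not_dvd.mpr h.not_dvd)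

theorem inv_unitScalar :
    ((h.unitScalar (Q := Q))⁻¹ : (TW P n)ˣ) = Ring.inverse (Q.twScalar v) := by
  rw [← Ring.inverse_unit, unitScalar, IsUnit.unit_spec]

theorem residue_unitScalar :
    residue (TW P n) ((h.unitScalar (Q := Q) : (TW P n)ˣ) : TW P n) = 1 := by
  rw [unitScalar, IsUnit.unit_spec, Q.residue_twScalar h.not_q_dvd]

/-- The basis of the upper eigenpart. -/
def upBasis : Module.Basis (Fin (Q.rank (insert v J))) (TW P n)
    (eigenPart (TW P n) (Degeneracy.upChar v (Q.delta J)) Q.badSet Q.aTW) :=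
  (TWSet.moduleBasis h.insert_sub).map (LinearEquiv.ofEq _ _ h.congr_level.1)

/-- The matrix of `T_l` at the upper level. -/
theorem toMatrix_up {l : ℕ} (hl : l.Prime) (hlS : l ∉ Q.badSet)
    (T : Module.End (TW P n) (eigenPart (TW P n) (Degeneracy.upChar v (Q.delta J)) Q.badSet Q.aTW))
    (hT : ∀ Φ : eigenPart (TW P n) (Degeneracy.upChar v (Q.delta J)) Q.badSet Q.aTW,
      (T Φ : Cusp → Cusp → TW P n) =
        tOpChar (TW P n) (Degeneracy.upChar v (Q.delta J)) l (Φ : Cusp → Cusp → TW P n)) :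
    LinearMap.toMatrix (h.upBasis (Q := Q)) (h.upBasis (Q := Q)) T = Q.tm (insert v J) l := by
  set e := LinearEquiv.ofEq _ _ (h.congr_level (Q := Q)).1
  rw [← TWSet.toMatrix_tm h.insert_sub hl (fun hd => hlS (Q.mem_badSet_of_dvd h.insert_sub hl hd))
    ((e.symm : _ →ₗ[TW P n] _) ∘ₗ T ∘ₗ (e : _ →ₗ[TW P n] _)) fun Φ => by
      show ((e.symm (T (e Φ))) : Cusp → Cusp → TW P n) = _
      rw [LinearEquiv.ofEq_symm, LinearEquiv.coe_ofEq_apply, hT, LinearEquiv.coe_ofEq_apply,
        h.congr_level.2]]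
  ext a b
  simp [upBasis, e, LinearMap.toMatrix_apply]

theorem residual_delta : (Q.delta J).ringHomComp (residue (TW P n)) = 1 := by
  refine MulChar.ext fun u => ?_
  have : NeZero (Q.level J) := ⟨Q.level_ne_zero h.sub⟩
  obtain ⟨d, hd⟩ : ∃ d : ℕ, (d : ZMod (Q.level J)) = (u : ZMod (Q.level J)) :=
    ⟨_, ZMod.natCast_zmod_val _⟩
  have hcop : d.Coprime (Q.level J) := (ZMod.isUnit_iff_coprime _ _).mp (hd ▸ u.isUnit)
  have hq : ∀ i, ¬ Q.q i ∣ d := fun i hi => (Q.q_prime i).1.ne_one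
    (Nat.eq_one_of_dvd_one (hcop ▸ Nat.dvd_gcd hi (Q.q_dvd_level i J)))
  rw [MulChar.one_apply_coe, MulChar.ringHomComp_apply, ← hd, ← Q.twScalar_mul_self J hcop,
    map_mul, Q.residue_twScalar hq, one_mul]

theorem hell : P.p = 3 → ∃ t, t.Prime ∧ t ∣ Q.level J ∧ t % 3 = 2 := fun h3 => by
  obtain ⟨t, ht, ht3⟩ := ExtraThree.out (P := P) h3
  have htP : t.Prime := P.prime t (by simp [ht])
  exact ⟨t, htP, (Q.prime_dvd_level h.sub htP).mpr (Or.inl (by simp [ht])), ht3⟩

theorem residualDegeneracy :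
    Degeneracy.ResidualDegeneracy (ResidueField (TW P n)) (Q.level J) v h.alData Q.badSet
      (residue (TW P n) ∘ Q.aTW) := by
  have : NeZero (Q.level J) := ⟨Q.level_ne_zero h.sub⟩
  obtain ⟨ℓ, hℓ, hℓS, hmod, hne⟩ := exists_non_eisenstein_TW P Q Q.badSet (Q.level_ne_zero h.sub)
  have hne' : ∃ ℓ, ℓ.Prime ∧ ℓ ∉ Q.badSet ∧ ℓ % Q.level J = 1 % Q.level J ∧
      (residue (TW P n) ∘ Q.aTW) ℓ ≠ 1 + ℓ :=
    ⟨ℓ, hℓ, hℓS, hmod, fun he => hne (he.trans (by rw [map_add, map_one, map_natCast]))⟩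
  refine ⟨fun Φ hΦ Ψ hΨ e => degeneracy_injective (p := P.p) P.hp2 h.prime h.not_dvd _ Q.badSet
    (Q.mem_badSet_of_dvd_level h.sub) _ hne' hΦ hΨ e, fun Φ hΦ Ψ hΨ => ?_⟩
  refine degeneracy_surjective (p := P.p) P.hp2 h.prime h.not_dvd _ h.hell Q.badSet
    (fun l hl hd => ?_) _ hne' hΦ hΨ
  rcases hl.dvd_mul.mp hd with hd | hd
  · exact h.mem_badSet l hl hd
  · exact Q.mem_badSet_of_dvd h.sub hl (hd.mul_left _)

theorem ker_residue_lower (Φ : Cusp → Cusp → TW P n)
    (hΦ : Φ ∈ eigenPart (TW P n) (Q.delta J) Q.badSet Q.aTW)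
    (h0 : mapVal (residue (TW P n)) Φ = 0) :
    Φ ∈ maximalIdeal (TW P n) • eigenPart (TW P n) (Q.delta J) Q.badSet Q.aTW := by
  have : NeZero (Q.level J) := ⟨Q.level_ne_zero h.sub⟩
  obtain ⟨-, -, hbc⟩ := eigenPart_free_baseChange P.p P.hp2 (Q.delta J)
    (fun u => ⟨n, Q.delta_pow J u⟩) h.hell Q.badSet
    (fun q hq hd => Q.mem_badSet_of_dvd h.sub hq hd) Q.aTW
    (exists_non_eisenstein_TW P Q Q.badSet (Q.level_ne_zero h.sub))
  have hk := (hbc (ResidueField (TW P n)) (residue (TW P n)) residue_surjective).2 Φ hΦ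
    fun x y => congrFun (congrFun h0 x) y
  rwa [IsLocalRing.ker_residue] at hk

theorem lift_residue_upper :
    ∀ Φ' ∈ eigenPart (ResidueField (TW P n))
      (1 : DirichletCharacter (ResidueField (TW P n)) (Q.level J * v)) Q.badSet
        (residue (TW P n) ∘ Q.aTW),
    ∃ Φ ∈ eigenPart (TW P n) (Degeneracy.upChar v (Q.delta J)) Q.badSet Q.aTW,
      mapVal (residue (TW P n)) Φ = Φ' := by
  have : NeZero (Q.level (insert v J)) := ⟨Q.level_ne_zero h.insert_sub⟩
  have : NeZero (Q.level J * v) :=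
    ⟨mul_ne_zero (Q.level_ne_zero h.sub) h.prime.ne_zero⟩
  obtain ⟨-, -, hbc⟩ := eigenPart_free_baseChange P.p P.hp2 (Degeneracy.upChar v (Q.delta J))
    (fun u => by
      obtain ⟨d, hd⟩ := ZMod.intCast_surjective (u : ZMod (Q.level J * v))
      have hu : IsUnit (d : ZMod (Q.level J * v)) := hd.symm ▸ u.isUnit
      have hu' : IsUnit (d : ZMod (Q.level J)) := by
        have := hu.map (ZMod.castHom (dvd_mul_right (Q.level J) v) (ZMod (Q.level J)))
        rwa [map_intCast] at this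
      refine ⟨n, ?_⟩
      rw [← hd, changeLevel_intCast _ _ _ hu, ← hu'.unit_spec]
      exact Q.delta_pow J _)
    (fun h3 => (h.hell (Q := Q) h3).imp fun t ht => ⟨ht.1, ht.2.1.mul_right v, ht.2.2⟩) Q.badSet
    (fun q hq hd => Q.mem_badSet_of_dvd h.insert_sub hq (h.level_eq ▸ hd)) Q.aTW
    (exists_non_eisenstein_TW P Q Q.badSet
      (mul_ne_zero (Q.level_ne_zero h.sub) h.prime.ne_zero))
  intro Φ' hΦ'
  obtain ⟨Φ, hΦ, e⟩ := (hbc (ResidueField (TW P n)) (residue (TW P n)) residue_surjective).1 Φ' (by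
    rwa [Degeneracy.upChar_residual (Q.delta J) h.residual_delta])
  exact ⟨Φ, hΦ, e⟩

theorem ker_residue_upper (Φ : Cusp → Cusp → TW P n)
    (hΦ : Φ ∈ eigenPart (TW P n) (Degeneracy.upChar v (Q.delta J)) Q.badSet Q.aTW)
    (h0 : mapVal (residue (TW P n)) Φ = 0) :
    Φ ∈ maximalIdeal (TW P n) •
      eigenPart (TW P n) (Degeneracy.upChar v (Q.delta J)) Q.badSet Q.aTW := by
  have : NeZero (Q.level (insert v J)) := ⟨Q.level_ne_zero h.insert_sub⟩
  have : NeZero (Q.level J * v) :=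
    ⟨mul_ne_zero (Q.level_ne_zero h.sub) h.prime.ne_zero⟩
  obtain ⟨-, -, hbc⟩ := eigenPart_free_baseChange P.p P.hp2 (Degeneracy.upChar v (Q.delta J))
    (fun u => by
      obtain ⟨d, hd⟩ := ZMod.intCast_surjective (u : ZMod (Q.level J * v))
      have hu : IsUnit (d : ZMod (Q.level J * v)) := hd.symm ▸ u.isUnit
      have hu' : IsUnit (d : ZMod (Q.level J)) := by
        have := hu.map (ZMod.castHom (dvd_mul_right (Q.level J) v) (ZMod (Q.level J)))
        rwa [map_intCast] at this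
      refine ⟨n, ?_⟩
      rw [← hd, changeLevel_intCast _ _ _ hu, ← hu'.unit_spec]
      exact Q.delta_pow J _)
    (fun h3 => (h.hell (Q := Q) h3).imp fun t ht => ⟨ht.1, ht.2.1.mul_right v, ht.2.2⟩) Q.badSet
    (fun q hq hd => Q.mem_badSet_of_dvd h.insert_sub hq (h.level_eq ▸ hd)) Q.aTW
    (exists_non_eisenstein_TW P Q Q.badSet
      (mul_ne_zero (Q.level_ne_zero h.sub) h.prime.ne_zero))
  have hk := (hbc (ResidueField (TW P n)) (residue (TW P n)) residue_surjective).2 Φ hΦ
    fun x y => congrFun (congrFun h0 x) y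
  rwa [IsLocalRing.ker_residue] at hk

/-- `T_v` at the lower level with the normalising scalar has `(v + 1)² - T²` invertible up to a
nonzero scalar. -/
theorem exists_inverse :
    ∃ (c : O) (T' : Matrix (Fin (Q.rank J)) (Fin (Q.rank J)) (TW P n)), c ≠ 0 ∧
      ((v : TW P n) + 1) ^ 2 • T' -
        (Ring.inverse (Q.twScalar v) • (Q.basis h.sub).tMat v) *
          ((Ring.inverse (Q.twScalar v) • (Q.basis h.sub).tMat v) * T') =
        algebraMap O (TW P n) c • (1 : Matrix (Fin (Q.rank J)) (Fin (Q.rank J)) (TW P n)) := by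
  classical
  let : Algebra ℤ (TW P n) := Ring.toIntAlgebra _
  set M := Ring.inverse (Q.twScalar v) • (Q.basis h.sub).tMat v with hM
  have := finite_points O (TW P n)
  let := Fintype.ofFinite (TW P n →ₐ[O] Kbar O)
  have hlev : ∀ f : TW P n →ₐ[O] Kbar O, ∃ R : ℤ[X],
      (aeval M R).map f = 0 ∧ R.eval ((v : ℤ) + 1) ≠ 0 ∧ R.eval (-((v : ℤ) + 1)) ≠ 0 := by
    intro f
    obtain ⟨C, iC, iD, iLR, iZ, iN, iAlg, j, φ, iL, hj, hφ⟩ := TWSet.exists_lift_point f
    have : NeZero (Q.twLevel φ J) := ⟨Q.twLevel_ne_zero φ h.sub⟩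
    have hv' : ¬ v ∣ Q.twLevel φ J := fun hd => h.not_dvd ((Q.dvd_twLevel_iff φ h.prime).mp hd)
    obtain ⟨R, hR, h1, h2⟩ := Degeneracy.exists_kill_heckeT (L := Q.twLevel φ J) h.prime hv'
    refine ⟨R, ?_, h1, h2⟩
    have h0 := Q.aeval_tMat_eq_zero h.sub φ h.prime h.not_dvd hv' R hR
    have hc : ∏ t ∈ Q.twT φ, (Q.chiFam φ t)⁻¹ (v : ZMod t) = φ (Ring.inverse (Q.twScalar v)) := by
      have e1 := Q.prod_chiFam_inv_mul φ v h.not_q_dvd
      have e2 : φ (Q.twScalar v) * φ (Ring.inverse (Q.twScalar v)) = 1 := by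
        rw [← map_mul, Ring.mul_inverse_cancel _ (Q.isUnit_twScalar h.not_q_dvd), map_one]
      calc _ = (∏ t ∈ Q.twT φ, (Q.chiFam φ t)⁻¹ (v : ZMod t)) *
            (φ (Q.twScalar v) * φ (Ring.inverse (Q.twScalar v))) := by rw [e2, mul_one]
        _ = _ := by rw [← mul_assoc, e1, one_mul]
    have h1' : φ.mapMatrix (aeval M R) = 0 := by
      rw [map_aeval_int φ.mapMatrix M R, RingHom.mapMatrix_apply, hM,
        Matrix.map_smul' _ _ _ (map_mul φ), ← hc, h0]
    ext a b
    rw [Matrix.map_apply, ← hφ]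
    have h2 := congrFun (congrFun h1' a) b
    rw [RingHom.mapMatrix_apply, Matrix.map_apply, Matrix.zero_apply] at h2
    rw [h2, map_zero, Matrix.zero_apply]
  choose R hR h1 h2 using hlev
  refine Degeneracy.exists_scaled_inverse (O := O) M v (∏ f, R f)
    (Matrix.ext fun a b => IsReduced.eq_zero _
      (isNilpotent_of_forall_point O (TW P n) fun f => ?_)) ?_ ?_
  · rw [← Finset.mul_prod_erase Finset.univ R (Finset.mem_univ f), map_mul]
    rw [Matrix.mul_apply, map_sum]
    refine Finset.sum_eq_zero fun x _ => ?_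
    rw [map_mul]
    refine mul_eq_zero_of_left ?_ _
    exact congrFun (congrFun (hR f) a) x
  · rw [Polynomial.eval_prod]
    exact Finset.prod_ne_zero_iff.mpr fun f _ => h1 f
  · rw [Polynomial.eval_prod]
    exact Finset.prod_ne_zero_iff.mpr fun f _ => h2 f

end RaiseStep

end FLTAgent.PointsDatum
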